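import Mathlib
import Fermat.Agent.FF3.LevelDesc.GoodModular
import Fermat.Agent.FF3.LevelDesc.RootsPack
import Fermat.Agent.FF3.StepA.OfData
import Fermat.Agent.FF3.GoodRep.Modular

/-!
# PROGRAMME II, kernel K1, node N5 (helper14), part 0: the root family of a `q`-new toric torsion
class on `setup Dt`, in helper21's `compPack` (landed bytes only)

* `exists_good_level_of_data` : for `Dt : ModularData M q B hB hqM` at a level without elliptic
  points, `x ∈ torSub (setup Dt) (q^k)` with `α_* x = 0`, `β_* x = 0`: a GOOD representative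
  `(D, f, u)` of `x` with `f` a unit of `O1` and of `O2`, and for every precision `n` and start level
  `S₀` a Galois-stable level `L ⊇ S₀` such that over every level `L' ⊇ L`: `f` is rational,
  `μ_{q^k}` is rational, `RatApprox O1 (q^k) n f L'` and `RatApprox O2 (q^k) n f L'`
  (helper27's `StepA.stepA_of_data` + helper23's `GoodRep.torGood_setup` +
  `LevelDesc.exists_good_level_modular`);
* `exists_roots_of_data` : the same with, over every level `L' ⊇ L`, a family `y v` of UNITS of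
  `(compPack B hB hqM (input Dt) rfl L').Oh v` with `y v ^ (q^k) = ⟨emb v ⟨f, _⟩, _⟩`
  (`LevelDesc.exists_roots_compPack` at the precision `2k+1`).
-/

set_option autoImplicit false
set_option linter.unusedSectionVars false
set_option linter.style.haveILetI false
set_option synthInstance.maxHeartbeats 400000

noncomputable section

namespace Fermat.Agent.FF4.TwistRoots

open AlgebraicCurve ModularCurve IsLocalRing Fermat.Agent.X0 Fermat.Agent.BR.Inst.Levels
  Fermat.Agent.BR.Inst.FKCover Fermat.Agent.Red Fermat.Agent.BR.SS Fermat.Agent.BR2.Filt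
  Fermat.Agent.BR3.TorGlue Fermat.Agent.FF3.StepA Fermat.Agent.BR.S0 Fermat.Agent.BR.TwoVal
  Fermat.Agent.BR.S0.RedModular Fermat.Agent.BR.Final Fermat.Agent.BR2.SetupOfData
  Fermat.Agent.Jac Fermat.Agent.BR Fermat.Agent.FF3.ExpPackComp Fermat.Agent.FF3.B4
  Fermat.Agent.FF3.LevelDesc

variable {M q : ℕ} [NeZero M] [hq : Fact q.Prime]
variable {B : ValuationSubring Kb} {hB : B.LiesOverPrime q} {hqM : ¬ q ∣ M}
variable [IsAlgClosed (ResidueField B)]

set_option maxHeartbeats 1000000 in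
/-- **`tor#` AT A FINITE LEVEL on the setup of the data** (`q`-new classes of the toric part). -/
theorem exists_good_level_of_data (Dt : ModularData M q B hB hqM) (h2 : nuTwo M = 0)
    (h3 : nuThree M = 0) (k : ℕ) {x : JZero (M * q)}
    (hx : x ∈ torSub (setup Dt) (q ^ k))
    (hα : LevelTransfer.alphaDown M q x = 0) (hβ : BR2.LevelMaps.betaDown M q x = 0) :
    ∃ (D : Divisor.degZero (K := Kb) (F := Fb (M * q))) (f : Fb (M * q))
      (u : ∀ v : Fin 2, (fun _ : Fin 2 => modularFunctionFieldFullC (ResidueField B) M) v),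
      IsGood (setup Dt) (q ^ k) x D f u ∧
      (f ∈ O1 M B hB ∧ f ∉ (O1 M B hB).nonunits) ∧
      (f ∈ O2 B hB hqM ∧ f ∉ (O2 B hB hqM).nonunits) ∧
      ∀ (n : ℕ) (S₀ : Finset Kb), ∃ L : Finset Kb, S₀ ⊆ L ∧ GalStable L ∧
        ∀ L' : Finset Kb, L ⊆ L' →
          f ∈ FKs (M * q) (KS q L') ∧ (∃ ζ ∈ KS q L', IsPrimitiveRoot ζ (q ^ k)) ∧
            RatApprox (O1 M B hB) (q ^ k) n f L' ∧ RatApprox (O2 B hB hqM) (q ^ k) n f L' := by
  haveI := BR2.ResInst.charP_res q B hB
  have hm : q ^ k ≠ 0 := pow_ne_zero k hq.out.ne_zero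
  have hx' : IsTorSharpApprox (B := B) (hB := hB) hqM (q ^ k) x :=
    mem_torSharpApprox.mp (stepA_of_data Dt hm hx hα hβ)
  exact exists_good_level_modular (input Dt) rfl (riemannPkg Dt 0) k
    (Fermat.Agent.FF3.GoodRep.torGood_setup Dt h2 h3 hm) hx hx'

set_option maxHeartbeats 2000000 in
/-- **THE ROOT FAMILY of a `q`-new toric torsion class at every sufficiently large level.** -/
theorem exists_roots_of_data (Dt : ModularData M q B hB hqM) (h2 : nuTwo M = 0)
    (h3 : nuThree M = 0) (k : ℕ) {x : JZero (M * q)}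
    (hx : x ∈ torSub (setup Dt) (q ^ k))
    (hα : LevelTransfer.alphaDown M q x = 0) (hβ : BR2.LevelMaps.betaDown M q x = 0) :
    ∃ (D : Divisor.degZero (K := Kb) (F := Fb (M * q))) (f : Fb (M * q))
      (u : ∀ v : Fin 2, (fun _ : Fin 2 => modularFunctionFieldFullC (ResidueField B) M) v),
      IsGood (setup Dt) (q ^ k) x D f u ∧
      (f ∈ O1 M B hB ∧ f ∉ (O1 M B hB).nonunits) ∧
      (f ∈ O2 B hB hqM ∧ f ∉ (O2 B hB hqM).nonunits) ∧
      ∀ S₀ : Finset Kb, ∃ L : Finset Kb, S₀ ⊆ L ∧ GalStable L ∧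
        ∀ L' : Finset Kb, L ⊆ L' →
          ∃ hf : f ∈ FKs (M * q) (KS q L'), (∃ ζ ∈ KS q L', IsPrimitiveRoot ζ (q ^ k)) ∧
            ∃ y : ∀ v, (compPack B hB hqM (input Dt) rfl L').Oh v, (∀ v, IsUnit (y v)) ∧
              ∀ (v : Fin 2) (hO : f ∈ (setup Dt).O v),
                y v ^ (q ^ k) = ⟨(compPack B hB hqM (input Dt) rfl L').emb v ⟨f, hf⟩,
                  ((compPack B hB hqM (input Dt) rfl L').emb_mem_iff v ⟨f, hf⟩).2 hO⟩ := by
  obtain ⟨D, f, u, hgood, hf1, hf2, hlev⟩ := exists_good_level_of_data Dt h2 h3 k hx hα hβ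
  refine ⟨D, f, u, hgood, hf1, hf2, fun S₀ => ?_⟩
  obtain ⟨L, hS₀, hL, hL'⟩ := hlev (2 * k + 1) S₀
  refine ⟨L, hS₀, hL, fun L' hLL' => ?_⟩
  obtain ⟨hf, hζ, h1, h2'⟩ := hL' L' hLL'
  exact ⟨hf, hζ, exists_roots_compPack B hB hqM (input Dt) rfl (Nat.lt_succ_self _)
    ⟨f, hf⟩ h1 h2' hf1 hf2⟩

end Fermat.Agent.FF4.TwistRoots
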