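import Mathlib
import Fermat.Agent.FF4.TwistRoots.OfData
import Fermat.Agent.FF4.InertiaTor

/-!
# PROGRAMME II, kernel K1, node N5 (helper14) = T1 of #1834 / step (3) of #1835:
`s f / f` IS A CONSTANT TIMES AN EXACT `q`-TH POWER IN THE COMPLETIONS, for every inertia element `s`

`x ∈ J₀(Mq)[q]` with `α_* x = 0 = β_* x`, `(D, f)` ANY representative (`q D = div f`; the points of `D`
may lie in the open annuli).  For `s` in the inertia group `I` of `B` the class `s x - x` lies in
`torSub q` (helper5's `inertia_tor`), is `q`-new (`alphaDown_smul`, `betaDown_smul`), so Programme I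
(`exists_roots_of_data`) gives a GOOD representative `(D_s, f_s)` of `s x - x` with unit roots
`y v ^ q = emb v f_s` in the completed valuation rings of every large level; and
`(s D - D, s f / f)` is another representative of the same class, hence `s f / f = a · f_s · g ^ q`
with `a` a constant and `g` a global function (`exists_eq_mul_pow`).

* `exists_eq_mul_pow`      : two representatives of one class differ by a constant and an `m`-th power;
* `exists_twist_root`      : the statement for one `s`, at all large levels;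
* `finite_inertia_orbit`   : `{s f | s ∈ I}` is finite (`I` fixes `K₀ = ℚ(μ_{prime to q})` pointwise, so
                             `s f` depends only on `s` restricted to the finite extension `ℚ(S₁)`);
* `exists_twist_roots`     : ONE common level for all `s ∈ I`.
-/

set_option autoImplicit false
set_option linter.unusedSectionVars false
set_option linter.style.haveILetI false
set_option synthInstance.maxHeartbeats 400000

noncomputable section

namespace Fermat.Agent.FF4.TwistRoots

open AlgebraicCurve ModularCurve IsLocalRing Fermat.Agent.X0 Fermat.Agent.BR.Inst.Levels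
  Fermat.Agent.BR.Inst.FKCover Fermat.Agent.Red Fermat.Agent.BR.SS Fermat.Agent.BR2.Filt
  Fermat.Agent.BR3.TorGlue Fermat.Agent.FF3.StepA Fermat.Agent.BR.S0 Fermat.Agent.BR.TwoVal
  Fermat.Agent.BR.S0.RedModular Fermat.Agent.BR.Final Fermat.Agent.BR2.SetupOfData
  Fermat.Agent.Jac Fermat.Agent.BR Fermat.Agent.FF3.ExpPackComp Fermat.Agent.FF3.B4
  Fermat.Agent.FF3.LevelDesc Fermat.Agent.BR.ValTwo Fermat.Agent.BR.UnramCyclo
  Fermat.Agent.BR.UnramCycloTower

local notation "GQ" => (AlgebraicClosure ℚ ≃ₐ[ℚ] AlgebraicClosure ℚ)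

/-! ### two representatives of one class -/

/-- **INDEPENDENCE OF THE REPRESENTATIVE**: two representatives of one `m`-torsion class differ by a
constant and an `m`-th power of a global function. -/
theorem exists_eq_mul_pow {N : ℕ} [NeZero N] {m : ℕ} {x : Pic0 Kb (Fb N)}
    {D D' : Divisor.degZero (K := Kb) (F := Fb N)} {f f' : Fb N}
    (h : BR2.Filt.IsRep m x D f) (h' : BR2.Filt.IsRep m x D' f') :
    ∃ (a : Kb) (g : Fb N), a ≠ 0 ∧ g ≠ 0 ∧
      (∀ P : Place Kb (Fb N),
        P.ord g = (D' : Divisor Kb (Fb N)) P - (D : Divisor Kb (Fb N)) P) ∧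
      f' = algebraMap Kb (Fb N) a * (f * g ^ m) := by
  obtain ⟨hx, hf, hD⟩ := h
  obtain ⟨hx', hf', hD'⟩ := h'
  have h1 : Pic0.mk (D' - D) = 0 := by
    have : Pic0.mk (D' - D) = Pic0.mk D' - Pic0.mk D := rfl
    rw [this, hx, hx', sub_self]
  have h2 := (QuotientAddGroup.eq_zero_iff _).mp h1
  rw [AddSubgroup.mem_addSubgroupOf] at h2
  obtain ⟨g, hg, hgD⟩ := h2
  have hfg : f * g ^ m ≠ 0 := mul_ne_zero hf (pow_ne_zero _ hg)
  have hord : ∀ P : Place Kb (Fb N), 0 ≤ P.ord (f' * (f * g ^ m)⁻¹) := by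
    intro P
    rw [P.ord_mul hf' (inv_ne_zero hfg), P.ord_inv, P.ord_mul hf (pow_ne_zero _ hg),
      ← zpow_natCast, Place.ord_zpow, ← hD P, ← hD' P, ← hgD P]
    have e : ((D' - D : Divisor.degZero (K := Kb) (F := Fb N)) : Divisor Kb (Fb N)) P =
        (D' : Divisor Kb (Fb N)) P - (D : Divisor Kb (Fb N)) P := by
      rw [AddSubgroup.coe_sub, Finsupp.sub_apply]
    rw [e]
    simp only [Finsupp.smul_apply, nsmul_eq_mul]
    apply le_of_eq
    ring
  obtain ⟨a, ha'⟩ := Fermat.Agent.Red.exists_const_of_forall_ord_nonneg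
    (Fermat.Agent.Val.riemannPkg_bar N) hord
  have ha0 : a ≠ 0 := by
    rintro rfl
    rw [map_zero] at ha'
    exact mul_ne_zero hf' (inv_ne_zero hfg) ha'
  refine ⟨a, g, ha0, hg, fun P => ?_, ?_⟩
  · rw [← hgD P, AddSubgroup.coe_sub, Finsupp.sub_apply]
  · rw [← ha', mul_assoc, inv_mul_cancel₀ hfg, mul_one]

/-! ### the twist roots for one inertia element -/

variable {M q : ℕ} [NeZero M] [hq : Fact q.Prime]
variable {B : ValuationSubring Kb} {hB : B.LiesOverPrime q} {hqM : ¬ q ∣ M}
variable [IsAlgClosed (ResidueField B)]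

/-- **The conclusion of N5 at the level `L`** for the class `z`, the divisor `E` and the function `F`
(`z = s x - x`, `E = s D - D`, `F = s f / f`): a GOOD representative `(D', fs, u)` of `z` (Programme
I), with `fs` a function of the level, a unit of both components, with an exact unit `q`-th root
`y v` in each completed valuation ring of the level; a nonzero constant `a` and a function `g ≠ 0`
of the level with `div g = E - D'` and `F = a · fs · g ^ q`. -/
def TwistRootAt (Dt : ModularData M q B hB hqM) (L : Finset Kb) (z : JZero (M * q))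
    (E : Divisor.degZero (K := Kb) (F := Fb (M * q))) (F : Fb (M * q)) : Prop :=
  ∃ (D' : Divisor.degZero (K := Kb) (F := Fb (M * q)))
    (u : ∀ v : Fin 2, (fun _ : Fin 2 => modularFunctionFieldFullC (ResidueField B) M) v)
    (a : Kb) (g fs : FKs (M * q) (KS q L))
    (y : ∀ v, (compPack B hB hqM (input Dt) rfl L).Oh v),
    IsGood (setup Dt) q z D' (fs : Fb (M * q)) u ∧
    a ≠ 0 ∧ (g : Fb (M * q)) ≠ 0 ∧
    ((fs : Fb (M * q)) ∈ O1 M B hB ∧ (fs : Fb (M * q)) ∉ (O1 M B hB).nonunits) ∧
    ((fs : Fb (M * q)) ∈ O2 B hB hqM ∧ (fs : Fb (M * q)) ∉ (O2 B hB hqM).nonunits) ∧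
    (∀ v, IsUnit (y v)) ∧
    (∀ v, ((y v : (compPack B hB hqM (input Dt) rfl L).Oh v) :
      (compPack B hB hqM (input Dt) rfl L).Lh v) ^ q =
        (compPack B hB hqM (input Dt) rfl L).emb v fs) ∧
    (∀ P : Place Kb (Fb (M * q)), P.ord (g : Fb (M * q)) =
      (E : Divisor Kb (Fb (M * q))) P - (D' : Divisor Kb (Fb (M * q))) P) ∧
    F = algebraMap Kb (Fb (M * q)) a * ((fs : Fb (M * q)) * (g : Fb (M * q)) ^ q)

/-- the three twists of a representative `(x, D, f)` by `s` -/
def twistClass (s : GQ) (x : JZero (M * q)) : JZero (M * q) := s • x - x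

/-- `s D - D` -/
def twistDiv (s : GQ) (D : Divisor.degZero (K := Kb) (F := Fb (M * q))) :
    Divisor.degZero (K := Kb) (F := Fb (M * q)) :=
  SemilinearAut.degZeroSMulHom (gal (M * q) s) D + -D

/-- `s f / f` -/
def twistFun (s : GQ) (f : Fb (M * q)) : Fb (M * q) := gal (M * q) s • f * f⁻¹

theorem isRep_twist {x : JZero (M * q)} {D : Divisor.degZero (K := Kb) (F := Fb (M * q))}
    {f : Fb (M * q)} (hR : BR2.Filt.IsRep q x D f) (s : GQ) :
    BR2.Filt.IsRep q (twistClass s x) (twistDiv s D) (twistFun s f) := by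
  unfold twistClass twistDiv twistFun
  rw [sub_eq_add_neg]
  exact (hR.smul (gal (M * q) s)).add hR.neg

set_option maxHeartbeats 2000000 in
/-- **N5 for one inertia element**: at every large level, `s f / f` is a constant times a function
with exact unit `q`-th roots in the completions times a `q`-th power of a function of the level. -/
theorem exists_twist_root (Dt : ModularData M q B hB hqM) (h2 : nuTwo M = 0)
    (h3 : nuThree M = 0) {x : JZero (M * q)} (hx : q • x = 0)
    (hα : LevelTransfer.alphaDown M q x = 0) (hβ : BR2.LevelMaps.betaDown M q x = 0)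
    {D : Divisor.degZero (K := Kb) (F := Fb (M * q))} {f : Fb (M * q)}
    (hR : BR2.Filt.IsRep q x D f) {s : GQ} (hs : s ∈ B.inertiaSubgroupIn ℚ) :
    ∃ L₀ : Finset Kb, ∀ L : Finset Kb, L₀ ⊆ L →
      TwistRootAt Dt L (twistClass s x) (twistDiv s D) (twistFun s f) := by
  have hz : twistClass s x ∈ torSub (setup Dt) (q ^ 1) := by
    rw [pow_one]
    exact Fermat.Agent.FF4.InertiaTor.inertia_tor Dt hs q x hx
  have hzα : LevelTransfer.alphaDown M q (twistClass s x) = 0 := by
    unfold twistClass
    rw [map_sub, LevelTransfer.alphaDown_smul, hα, sub_zero]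
    exact smul_zero (A := JZero M) s
  have hzβ : BR2.LevelMaps.betaDown M q (twistClass s x) = 0 := by
    unfold twistClass
    rw [map_sub, BR2.LevelMaps.betaDown_smul, hβ, sub_zero]
    exact smul_zero (A := JZero M) s
  obtain ⟨D', f', u, hgood, hf1, hf2, hlev⟩ := exists_roots_of_data Dt h2 h3 1 hz hzα hzβ
  rw [pow_one] at hgood
  obtain ⟨a, g, ha, hg, hord, he⟩ := exists_eq_mul_pow hgood.isRep (isRep_twist hR s)
  obtain ⟨S₁, hS₁⟩ := exists_forall_mem_FS (M * q) q g
  obtain ⟨L₀, hS₁L, -, hL₀⟩ := hlev S₁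
  refine ⟨L₀, fun L hL => ?_⟩
  obtain ⟨hf, -, y, hyu, hy⟩ := hL₀ L hL
  have hO : ∀ v : Fin 2, f' ∈ (setup Dt).O v := by
    haveI := BR2.ResInst.charP_res q B hB
    intro v
    fin_cases v
    · have := hf1.1
      rwa [← toSetup_O_zero (input Dt) rfl] at this
    · have := hf2.1
      rwa [← toSetup_O_one (input Dt) rfl] at this
  refine ⟨D', u, a, ⟨g, hS₁ L (hS₁L.trans hL)⟩, ⟨f', hf⟩, y, hgood, ha, hg, hf1, hf2, hyu,
    fun v => ?_, hord, he⟩
  have := congrArg Subtype.val (hy v (hO v))
  rw [pow_one] at this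
  exact this

/-! ### finiteness of the inertia orbit of a function -/

/-- the intermediate field of the constants fixed by `σ` -/
def fixedConst (σ : GQ) : IntermediateField ℚ Kb where
  carrier := {c | σ c = c}
  mul_mem' := fun {a b} (ha : σ a = a) (hb : σ b = b) => by
    show σ (a * b) = a * b
    rw [map_mul, ha, hb]
  one_mem' := map_one σ
  add_mem' := fun {a b} (ha : σ a = a) (hb : σ b = b) => by
    show σ (a + b) = a + b
    rw [map_add, ha, hb]
  zero_mem' := map_zero σ
  algebraMap_mem' := fun r => σ.commutes r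
  inv_mem' := fun a (ha : σ a = a) => by
    show σ a⁻¹ = a⁻¹
    rw [map_inv₀, ha]

theorem mem_fixedConst {σ : GQ} {c : Kb} : c ∈ fixedConst σ ↔ σ c = c := Iff.rfl

/-- an automorphism fixing `K₀` and `S` pointwise fixes `K₀(S)` pointwise -/
theorem apply_eq_of_mem_KS {S : Finset Kb} {σ : GQ}
    (h1 : ∀ c ∈ cycloField Kb q, σ c = c) (h2 : ∀ c ∈ S, σ c = c) {c : Kb}
    (hc : c ∈ KS q S) : σ c = c := by
  have hle : coeffField q S ≤ fixedConst σ := by
    unfold coeffField
    refine sup_le (fun c hc => h1 c hc) ?_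
    rw [IntermediateField.adjoin_le_iff]
    exact fun c hc => h2 c (Finset.mem_coe.1 hc)
  exact hle (mem_KS_iff.1 hc)

/-- two inertia elements which agree on the finite set `S` move the functions of the level `S` in
the same way -/
theorem gal_smul_eq_of_agree {N : ℕ} [NeZero N] {S : Finset Kb} {f : Fb N}
    (hf : f ∈ FKs N (KS q S)) {s t : GQ} (hs : s ∈ B.inertiaSubgroupIn ℚ)
    (ht : t ∈ B.inertiaSubgroupIn ℚ) (hB : B.LiesOverPrime q) (h : ∀ c ∈ S, s c = t c) :
    gal N s • f = gal N t • f := by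
  have hI : t⁻¹ * s ∈ B.inertiaSubgroupIn ℚ := mul_mem (inv_mem ht) hs
  have h1 : gal N (t⁻¹ * s) • f = f := by
    refine gal_smul_eq_of_mem_FKs (E := KS q S) (fun c hc => ?_) hf
    refine apply_eq_of_mem_KS (q := q)
      (fun c hc => apply_eq_of_mem_inertia B hq.out hB hI hc) (fun c hc => ?_) hc
    show t⁻¹ (s c) = c
    rw [h c hc]
    exact t.symm_apply_apply c
  have h2 : gal N t • (gal N (t⁻¹ * s) • f) = gal N s • f := by
    rw [← mul_smul, ← map_mul, mul_inv_cancel_left]
  rw [← h2, h1]

/-- **THE INERTIA ORBIT OF A FUNCTION IS FINITE.** -/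
theorem finite_inertia_orbit {N : ℕ} [NeZero N] (hB : B.LiesOverPrime q) (f : Fb N) :
    (Set.range fun s : B.inertiaSubgroupIn ℚ => gal N (s : GQ) • f).Finite := by
  classical
  obtain ⟨S, hS⟩ := exists_forall_mem_FS N q f
  have hf : f ∈ FKs N (KS q S) := hS S (Finset.Subset.refl S)
  let L : IntermediateField ℚ Kb := IntermediateField.adjoin ℚ (S : Set Kb)
  haveI : FiniteDimensional ℚ L :=
    IntermediateField.finiteDimensional_adjoin fun x _ => isIntegral_rat_Kb x
  let φ : (Set.range fun s : B.inertiaSubgroupIn ℚ => gal N (s : GQ) • f) → (L →ₐ[ℚ] Kb) :=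
    fun y => (((Classical.choose y.2 : B.inertiaSubgroupIn ℚ) : GQ) : Kb →ₐ[ℚ] Kb).comp L.val
  have hφ : Function.Injective φ := by
    intro y y' hyy'
    have hy := Classical.choose_spec y.2
    have hy' := Classical.choose_spec y'.2
    apply Subtype.ext
    rw [← hy, ← hy']
    refine gal_smul_eq_of_agree hf (Classical.choose y.2).2 (Classical.choose y'.2).2 hB
      fun c hc => ?_
    exact DFunLike.congr_fun hyy' ⟨c, IntermediateField.subset_adjoin ℚ _ (Finset.mem_coe.2 hc)⟩
  exact Set.finite_coe_iff.mp (Finite.of_injective φ hφ)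

/-! ### the twists depend only on `s f` -/

theorem twist_eq_of_smul_eq {x : JZero (M * q)}
    {D : Divisor.degZero (K := Kb) (F := Fb (M * q))} {f : Fb (M * q)}
    (hR : BR2.Filt.IsRep q x D f) {s t : GQ} (h : gal (M * q) s • f = gal (M * q) t • f) :
    twistClass s x = twistClass t x ∧ twistDiv s D = twistDiv t D ∧
      twistFun s f = twistFun t f := by
  have hs := hR.smul (gal (M * q) s)
  have ht := hR.smul (gal (M * q) t)
  have hD : SemilinearAut.degZeroSMulHom (gal (M * q) s) D =
      SemilinearAut.degZeroSMulHom (gal (M * q) t) D := by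
    apply Subtype.ext
    apply Finsupp.ext
    intro P
    have h1 := hs.2.2 P
    have h2 := ht.2.2 P
    rw [← h] at h2
    rw [← h2] at h1
    simp only [Finsupp.smul_apply, nsmul_eq_mul] at h1
    have hq0 : (q : ℤ) ≠ 0 := by exact_mod_cast hq.out.ne_zero
    exact mul_left_cancel₀ hq0 h1
  have hx : s • x = t • x := by
    have e1 : s • x = gal (M * q) s • x := rfl
    have e2 : t • x = gal (M * q) t • x := rfl
    rw [e1, e2, ← hs.1, ← ht.1, hD]
  refine ⟨?_, ?_, ?_⟩
  · unfold twistClass
    rw [hx]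
  · unfold twistDiv
    rw [hD]
  · unfold twistFun
    rw [h]

/-! ### ONE common level for all inertia elements -/

set_option maxHeartbeats 1000000 in
/-- **N5 = T1 of #1834 / step (3) + (vi) of #1835**: ONE level `L₀` such that over every level
`L ⊇ L₀` and for EVERY inertia element `s`, the twist `s f / f` of the representative `(D, f)` of
the `q`-new class `x ∈ J₀(Mq)[q]` is `a · f_s · g ^ q` with `(D_s, f_s)` a good representative of
`s x - x` with exact unit `q`-th roots in the completed valuation rings of the level. -/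
theorem exists_twist_roots (Dt : ModularData M q B hB hqM) (h2 : nuTwo M = 0)
    (h3 : nuThree M = 0) {x : JZero (M * q)} (hx : q • x = 0)
    (hα : LevelTransfer.alphaDown M q x = 0) (hβ : BR2.LevelMaps.betaDown M q x = 0)
    {D : Divisor.degZero (K := Kb) (F := Fb (M * q))} {f : Fb (M * q)}
    (hR : BR2.Filt.IsRep q x D f) :
    ∃ L₀ : Finset Kb, ∀ L : Finset Kb, L₀ ⊆ L → ∀ s ∈ B.inertiaSubgroupIn ℚ,
      TwistRootAt Dt L (twistClass s x) (twistDiv s D) (twistFun s f) := by
  classical
  have hfin := finite_inertia_orbit (B := B) (q := q) hB f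
  have key : ∀ F ∈ (Set.range fun s : B.inertiaSubgroupIn ℚ => gal (M * q) (s : GQ) • f),
      ∃ L₀ : Finset Kb, ∀ L : Finset Kb, L₀ ⊆ L → ∀ s ∈ B.inertiaSubgroupIn ℚ,
        gal (M * q) s • f = F →
          TwistRootAt Dt L (twistClass s x) (twistDiv s D) (twistFun s f) := by
    rintro F ⟨t, rfl⟩
    obtain ⟨L₀, hL₀⟩ := exists_twist_root Dt h2 h3 hx hα hβ hR t.2
    refine ⟨L₀, fun L hL s _ hsF => ?_⟩
    obtain ⟨e1, e2, e3⟩ := twist_eq_of_smul_eq hR hsF
    rw [e1, e2, e3]
    exact hL₀ L hL
  choose! L₀ hL₀ using key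
  refine ⟨hfin.toFinset.biUnion L₀, fun L hL s hs => ?_⟩
  have hmem : gal (M * q) s • f ∈
      (Set.range fun s : B.inertiaSubgroupIn ℚ => gal (M * q) (s : GQ) • f) := ⟨⟨s, hs⟩, rfl⟩
  refine hL₀ _ hmem L (fun c hc => hL ?_) s hs rfl
  rw [Finset.mem_biUnion]
  exact ⟨_, hfin.mem_toFinset.2 hmem, hc⟩

end Fermat.Agent.FF4.TwistRoots
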