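import Mathlib
import Fermat.Agent.FF4.TwistRoots.Twist

/-!
# PROGRAMME II, kernel K1, node N5 (helper14), CONSUMER FORM: `emb_v (s f) = emb_v a · emb_v f · r_v ^ q`

Over a Galois-stable level `L` containing the level of `f` the twist `s f / f` is a function of the
level, so the constant `a` of `TwistRootAt` is a constant of the level (Galois descent in
`ℚ̄ / K₀(L)`), and the identity `s f / f = a · f_s · g ^ q` can be read in the completions
`(compPack … L).Lh v`:

* `mem_KS_of_forall_fixed` : Galois descent for the constants of a level;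
* `TwistRootAt.exists_emb_eq` : the full datum, with `a ∈ K₀(L)` and
  `emb v F = emb v a * (y v * emb v g) ^ q`;
* `exists_twist_roots_emb` : **T1 of #1834 / step (3) of #1835**, at one common level for all inertia
  elements: `emb v (s f) = emb v a * emb v f * r v ^ q`, `r v ≠ 0`.
-/

set_option autoImplicit false
set_option linter.unusedSectionVars false
set_option linter.style.haveILetI false
set_option synthInstance.maxHeartbeats 400000

noncomputable section

namespace Fermat.Agent.FF4.TwistRoots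

open AlgebraicCurve ModularCurve IsLocalRing Fermat.Agent.X0 Fermat.Agent.BR.Inst.Levels
  Fermat.Agent.BR.Inst.FKCover Fermat.Agent.Red Fermat.Agent.BR.SS Fermat.Agent.BR2.Filt
  Fermat.Agent.BR3.TorGlue Fermat.Agent.FF3.StepA Fermat.Agent.BR.S0 Fermat.Agent.BR.TwoVal
  Fermat.Agent.BR.S0.RedModular Fermat.Agent.BR.Final Fermat.Agent.BR2.SetupOfData
  Fermat.Agent.Jac Fermat.Agent.BR Fermat.Agent.FF3.ExpPackComp Fermat.Agent.FF3.B4
  Fermat.Agent.FF3.LevelDesc Fermat.Agent.BR.ValTwo Fermat.Agent.BR.UnramCyclo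
  Fermat.Agent.BR.UnramCycloTower

local notation "GQ" => (AlgebraicClosure ℚ ≃ₐ[ℚ] AlgebraicClosure ℚ)

/-- Galois descent in `ℚ̄ / K₀(L)` -/
theorem mem_KS_of_forall_fixed (q : ℕ) (L : Finset Kb) {c : Kb}
    (hc : ∀ σ : GQ, (∀ x ∈ KS q L, σ x = x) → σ c = c) : c ∈ KS q L := by
  have : IsAlgClosure ℚ Kb := AlgebraicClosure.instIsAlgClosure ℚ
  have : IsGalois ℚ Kb := inferInstance
  rw [mem_KS_iff, ← InfiniteGalois.fixedField_fixingSubgroup (coeffField q L),
    IntermediateField.mem_fixedField_iff]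
  intro σ hσ
  refine hc σ (fun x hx => ?_)
  exact (IntermediateField.mem_fixingSubgroup_iff _ σ).1 hσ x hx

section Generic

universe u₁ u₂ u₃ u₄ u₅ u₆ w

variable {K : Type u₁} {F : Type u₂} {k : Type u₃} [Field K] [Field F] [Algebra K F] [Field k]
  {A : ValuationSubring K} {π : A →+* k} {ι : Type u₄} {Ft : ι → Type u₅}
  [∀ v, Field (Ft v)] [∀ v, Algebra k (Ft v)] {ν : Type u₆}
  {S : SemistableSetup (F := F) A π ι Ft ν} {F₀ : Subfield F} {ϖ : F₀}

/-- reading `F = c · fs · g ^ n` in a completion in which `fs` has the root `y` -/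
theorem CompPack_emb_eq_of_root (P : CompPack.{u₁, u₂, u₃, u₄, u₅, u₆, w} S F₀ ϖ) (v : ι) {n : ℕ}
    {Fx c fs g : F₀} {y : P.Oh v} (hy : ((y : P.Oh v) : P.Lh v) ^ n = P.emb v fs)
    (e : Fx = c * (fs * g ^ n)) :
    P.emb v Fx = P.emb v c * (((y : P.Oh v) : P.Lh v) * P.emb v g) ^ n := by
  rw [e, map_mul, map_mul, map_pow, mul_pow, hy]

/-- the same for `s f = (s f / f) · f` -/
theorem CompPack_emb_twist (P : CompPack.{u₁, u₂, u₃, u₄, u₅, u₆, w} S F₀ ϖ) (v : ι) {n : ℕ}
    {sf Fx f c : F₀} {r : P.Lh v} (e : sf = Fx * f) (h : P.emb v Fx = P.emb v c * r ^ n) :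
    P.emb v sf = P.emb v c * P.emb v f * r ^ n := by
  rw [e, map_mul, h]
  ring

theorem CompPack_root_ne_zero (P : CompPack.{u₁, u₂, u₃, u₄, u₅, u₆, w} S F₀ ϖ) (v : ι)
    {y : P.Oh v} (hy : IsUnit y) {g : F₀} (hg : g ≠ 0) :
    ((y : P.Oh v) : P.Lh v) * P.emb v g ≠ 0 := by
  refine mul_ne_zero ?_ ?_
  · intro h0
    have : y = 0 := Subtype.ext h0
    exact hy.ne_zero this
  · rw [Ne, map_eq_zero_iff _ (P.emb v).injective]
    exact hg

end Generic

variable {M q : ℕ} [NeZero M] [hq : Fact q.Prime]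
variable {B : ValuationSubring Kb} {hB : B.LiesOverPrime q} {hqM : ¬ q ∣ M}
variable [IsAlgClosed (ResidueField B)]

/-- the constant `a` as a function of the level -/
def constFn (L : Finset Kb) (a : Kb) (ha : a ∈ KS q L) : FKs (M * q) (KS q L) :=
  ⟨algebraMap Kb (Fb (M * q)) a, const_mem_FS (M * q) q ha⟩

set_option maxHeartbeats 1000000 in
/-- **the datum of `TwistRootAt` over a level containing the twist `F`**: the constant is a
constant of the level, and the identity holds in the completions. -/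
theorem TwistRootAt.exists_emb_eq {Dt : ModularData M q B hB hqM} {L : Finset Kb}
    {z : JZero (M * q)} {E : Divisor.degZero (K := Kb) (F := Fb (M * q))} {F : Fb (M * q)}
    (h : TwistRootAt Dt L z E F) (hF : F ∈ FKs (M * q) (KS q L)) :
    ∃ (D' : Divisor.degZero (K := Kb) (F := Fb (M * q)))
      (u : ∀ v : Fin 2, (fun _ : Fin 2 => modularFunctionFieldFullC (ResidueField B) M) v)
      (a : Kb) (ha : a ∈ KS q L) (g fs : FKs (M * q) (KS q L))
      (y : ∀ v, (compPack B hB hqM (input Dt) rfl L).Oh v),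
      IsGood (setup Dt) q z D' (fs : Fb (M * q)) u ∧
      a ≠ 0 ∧ (g : Fb (M * q)) ≠ 0 ∧
      (∀ v, IsUnit (y v)) ∧
      (∀ v, ((y v : (compPack B hB hqM (input Dt) rfl L).Oh v) :
        (compPack B hB hqM (input Dt) rfl L).Lh v) ^ q =
          (compPack B hB hqM (input Dt) rfl L).emb v fs) ∧
      (∀ P : Place Kb (Fb (M * q)), P.ord (g : Fb (M * q)) =
        (E : Divisor Kb (Fb (M * q))) P - (D' : Divisor Kb (Fb (M * q))) P) ∧
      F = algebraMap Kb (Fb (M * q)) a * ((fs : Fb (M * q)) * (g : Fb (M * q)) ^ q) ∧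
      ∀ v, (compPack B hB hqM (input Dt) rfl L).emb v ⟨F, hF⟩ =
        (compPack B hB hqM (input Dt) rfl L).emb v (constFn L a ha) *
          (((y v : (compPack B hB hqM (input Dt) rfl L).Oh v) :
            (compPack B hB hqM (input Dt) rfl L).Lh v) *
            (compPack B hB hqM (input Dt) rfl L).emb v g) ^ q := by
  obtain ⟨D', u, a, g, fs, y, hgood, ha0, hg0, -, -, hyu, hy, hord, hF'⟩ := h
  have hfs0 : (fs : Fb (M * q)) ≠ 0 := hgood.isRep.2.1
  have hX : (fs : Fb (M * q)) * (g : Fb (M * q)) ^ q ≠ 0 :=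
    mul_ne_zero hfs0 (pow_ne_zero _ hg0)
  have ha : a ∈ KS q L := by
    refine mem_KS_of_forall_fixed q L (fun σ hσ => ?_)
    have e1 : gal (M * q) σ • F = F := gal_smul_eq_of_mem_FKs (E := KS q L) hσ hF
    have e2 : gal (M * q) σ • (fs : Fb (M * q)) = fs :=
      gal_smul_eq_of_mem_FKs (E := KS q L) hσ fs.2
    have e3 : gal (M * q) σ • (g : Fb (M * q)) = g :=
      gal_smul_eq_of_mem_FKs (E := KS q L) hσ g.2
    have e4 : gal (M * q) σ • F = algebraMap Kb (Fb (M * q)) (σ a) *
        ((fs : Fb (M * q)) * (g : Fb (M * q)) ^ q) := by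
      conv_lhs => rw [hF']
      rw [smul_mul', smul_mul', smul_pow', e2, e3, SemilinearAut.smul_algebraMap]
      rfl
    rw [e1] at e4
    have e5 : algebraMap Kb (Fb (M * q)) a = algebraMap Kb (Fb (M * q)) (σ a) := by
      have := hF'.symm.trans e4
      exact mul_right_cancel₀ hX this
    exact ((algebraMap Kb (Fb (M * q))).injective e5).symm
  refine ⟨D', u, a, ha, g, fs, y, hgood, ha0, hg0, hyu, hy, hord, hF', fun v => ?_⟩
  have e : (⟨F, hF⟩ : FKs (M * q) (KS q L)) = constFn L a ha * (fs * g ^ q) :=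
    Subtype.ext hF'
  exact CompPack_emb_eq_of_root _ v (hy v) e

set_option maxHeartbeats 1000000 in
/-- **N5 = T1, CONSUMER FORM**: one level `L₀`; over every GALOIS-STABLE level `L ⊇ L₀` the
function `f` is a function of the level and for EVERY inertia element `s` there are a nonzero
constant `a` of the level and nonzero elements `r v` of the completions with
`emb v (s f) = emb v a * emb v f * r v ^ q`. -/
theorem exists_twist_roots_emb (Dt : ModularData M q B hB hqM) (h2 : nuTwo M = 0)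
    (h3 : nuThree M = 0) {x : JZero (M * q)} (hx : q • x = 0)
    (hα : LevelTransfer.alphaDown M q x = 0) (hβ : BR2.LevelMaps.betaDown M q x = 0)
    {D : Divisor.degZero (K := Kb) (F := Fb (M * q))} {f : Fb (M * q)}
    (hR : BR2.Filt.IsRep q x D f) :
    ∃ L₀ : Finset Kb, ∀ L : Finset Kb, L₀ ⊆ L → ∀ hL : GalStable L,
      ∃ hf : f ∈ FKs (M * q) (KS q L), ∀ s ∈ B.inertiaSubgroupIn ℚ,
        ∃ (a : Kb) (ha : a ∈ KS q L) (r : ∀ v, (compPack B hB hqM (input Dt) rfl L).Lh v),
          a ≠ 0 ∧ (∀ v, r v ≠ 0) ∧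
          ∀ v, (compPack B hB hqM (input Dt) rfl L).emb v
              ⟨gal (M * q) s • f, hL.gal_smul_mem_FKs_of_mem q (M * q) s hf⟩ =
            (compPack B hB hqM (input Dt) rfl L).emb v (constFn L a ha) *
              (compPack B hB hqM (input Dt) rfl L).emb v ⟨f, hf⟩ * r v ^ q := by
  classical
  obtain ⟨L₁, hL₁⟩ := exists_twist_roots Dt h2 h3 hx hα hβ hR
  obtain ⟨S₁, hS₁⟩ := exists_forall_mem_FS (M * q) q f
  refine ⟨L₁ ∪ S₁, fun L hL hstab => ?_⟩
  have hf : f ∈ FKs (M * q) (KS q L) := hS₁ L (Finset.union_subset_right hL)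
  refine ⟨hf, fun s hs => ?_⟩
  have hsf : gal (M * q) s • f ∈ FKs (M * q) (KS q L) :=
    hstab.gal_smul_mem_FKs_of_mem q (M * q) s hf
  have hF : twistFun s f ∈ FKs (M * q) (KS q L) :=
    Subfield.mul_mem _ hsf (Subfield.inv_mem _ hf)
  obtain ⟨D', u, a, ha, g, fs, y, hgood, ha0, hg0, hyu, -, -, -, hemb⟩ :=
    (hL₁ L (Finset.union_subset_left hL) s hs).exists_emb_eq hF
  have hf0 : f ≠ 0 := hR.2.1
  refine ⟨a, ha, fun v => ((y v : (compPack B hB hqM (input Dt) rfl L).Oh v) :
      (compPack B hB hqM (input Dt) rfl L).Lh v) *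
      (compPack B hB hqM (input Dt) rfl L).emb v g, ha0, fun v => ?_, fun v => ?_⟩
  · exact CompPack_root_ne_zero _ v (hyu v) (fun h0 => hg0 (congrArg Subtype.val h0))
  · have e : (⟨gal (M * q) s • f, hsf⟩ : FKs (M * q) (KS q L)) =
        ⟨twistFun s f, hF⟩ * ⟨f, hf⟩ := by
      apply Subtype.ext
      show gal (M * q) s • f = gal (M * q) s • f * f⁻¹ * f
      rw [mul_assoc, inv_mul_cancel₀ hf0, mul_one]
    exact CompPack_emb_twist _ v e (hemb v)

end Fermat.Agent.FF4.TwistRoots
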