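import Mathlib
import Fermat.Agent.FF4.TwistRoots.Emb

/-!
# PROGRAMME II, kernel K1, node N5 (helper14): ADAPTER from `exists_twist_roots_emb` to the
hypotheses `h₀`, `h₁` (T1) of helper11's `AmiceLead.k1_gamma`

`k1_gamma` asks, for `E_v` the completed component field, `act_v : Γ →* RingAut E_v`,
`ι_v : K →+* E_v` (the completed constants) and `f_v ≠ 0`:

  `∀ t : Γ, ∃ a ∈ ι_v.fieldRange, ∃ m : E_v, act_v t f_v = a * m ^ p * f_v`.

Here `Γ = ↥(B.inertiaSubgroupIn ℚ)`, `p = q`, `E_v = (compPack … L).Lh v`, `f_v = emb v ⟨f, hf⟩`.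
The two facts the tower must supply (helper29's `GaloisLayer`, helper20's `ConstEmb`) are taken as
hypotheses in exactly the shape in which they are used:

* `hact` : `act t (emb v ⟨f, hf⟩) = emb v ⟨gal t • f, _⟩` (only at the one function `f`);
* `hι`   : `emb v (constFn L a ha) ∈ ι.fieldRange` for the constants `a ∈ K₀(L)` of the level.
-/

set_option autoImplicit false
set_option linter.unusedSectionVars false
set_option linter.style.haveILetI false
set_option synthInstance.maxHeartbeats 400000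

noncomputable section

namespace Fermat.Agent.FF4.TwistRoots

open AlgebraicCurve ModularCurve IsLocalRing Fermat.Agent.X0 Fermat.Agent.BR.Inst.Levels
  Fermat.Agent.BR.Inst.FKCover Fermat.Agent.Red Fermat.Agent.BR.SS Fermat.Agent.BR2.Filt
  Fermat.Agent.BR3.TorGlue Fermat.Agent.FF3.StepA Fermat.Agent.BR.S0 Fermat.Agent.BR.TwoVal
  Fermat.Agent.BR.S0.RedModular Fermat.Agent.BR.Final Fermat.Agent.BR2.SetupOfData
  Fermat.Agent.Jac Fermat.Agent.BR Fermat.Agent.FF3.ExpPackComp Fermat.Agent.FF3.B4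
  Fermat.Agent.FF3.LevelDesc Fermat.Agent.BR.ValTwo Fermat.Agent.BR.UnramCyclo
  Fermat.Agent.BR.UnramCycloTower

local notation "GQ" => (AlgebraicClosure ℚ ≃ₐ[ℚ] AlgebraicClosure ℚ)

universe u

/-- the elementary step: `act t f₀ = s f₀ = c · f₀ · r ^ n` read as `c · r ^ n · f₀` -/
theorem k1_hyp_step {E : Type*} [Field E] {Γ : Type*} [Group Γ] (act : Γ →* RingAut E) (t : Γ)
    {n : ℕ} {f₀ sf₀ c r : E} (hact : act t f₀ = sf₀) (hemb : sf₀ = c * f₀ * r ^ n) :
    act t f₀ = c * r ^ n * f₀ := by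
  rw [hact, hemb]
  ring

/-- **the adapter, abstract form**: for ANY component package `P`, action `act` and constants `ι` -/
theorem k1_hyp_of_emb {E : Type*} [Field E] {Γ : Type*} [Group Γ] (act : Γ →* RingAut E)
    {K : Type*} [Field K] (ι : K →+* E) {n : ℕ} {f₀ : E}
    (h : ∀ t : Γ, ∃ c sf₀ r : E, c ∈ ι.fieldRange ∧ act t f₀ = sf₀ ∧ sf₀ = c * f₀ * r ^ n) :
    ∀ t : Γ, ∃ a ∈ ι.fieldRange, ∃ m : E, act t f₀ = a * m ^ n * f₀ := by
  intro t
  obtain ⟨c, sf₀, r, hc, h1, h2⟩ := h t
  exact ⟨c, hc, r, k1_hyp_step act t h1 h2⟩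

variable {M q : ℕ} [NeZero M] [hq : Fact q.Prime]
variable {B : ValuationSubring Kb} {hB : B.LiesOverPrime q} {hqM : ¬ q ∣ M}
variable [IsAlgClosed (ResidueField B)]

set_option maxHeartbeats 1000000 in
/-- **(T1) in the shape of `k1_gamma`**: one level `L₀`; over every Galois-stable level `L ⊇ L₀`,
`f` is a nonzero function of the level and for every component `v`, every action `act` of the
inertia group on `E_v` which moves `emb v f` as `gal` moves `f`, and every embedding `ι` of a field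
of constants whose range contains the constants of the level: the hypothesis (T1) of `k1_gamma`
holds for `f_v = emb v f`, and `f_v ≠ 0`. -/
theorem exists_level_k1_hyp (Dt : ModularData M q B hB hqM) (h2 : nuTwo M = 0)
    (h3 : nuThree M = 0) {x : JZero (M * q)} (hx : q • x = 0)
    (hα : LevelTransfer.alphaDown M q x = 0) (hβ : BR2.LevelMaps.betaDown M q x = 0)
    {D : Divisor.degZero (K := Kb) (F := Fb (M * q))} {f : Fb (M * q)}
    (hR : BR2.Filt.IsRep q x D f) :
    ∃ L₀ : Finset Kb, ∀ L : Finset Kb, L₀ ⊆ L → ∀ hL : GalStable L,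
      ∃ hf : f ∈ FKs (M * q) (KS q L), ∀ v : Fin 2,
        (compPack B hB hqM (input Dt) rfl L).emb v ⟨f, hf⟩ ≠ 0 ∧
        ∀ {K : Type u} [Field K] (ι : K →+* (compPack B hB hqM (input Dt) rfl L).Lh v)
          (act : ↥(B.inertiaSubgroupIn ℚ) →* RingAut ((compPack B hB hqM (input Dt) rfl L).Lh v)),
          (∀ (a : Kb) (ha : a ∈ KS q L),
            (compPack B hB hqM (input Dt) rfl L).emb v (constFn L a ha) ∈ ι.fieldRange) →
          (∀ t : ↥(B.inertiaSubgroupIn ℚ),
            act t ((compPack B hB hqM (input Dt) rfl L).emb v ⟨f, hf⟩) =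
              (compPack B hB hqM (input Dt) rfl L).emb v
                ⟨gal (M * q) (t : GQ) • f, hL.gal_smul_mem_FKs_of_mem q (M * q) t hf⟩) →
          ∀ t : ↥(B.inertiaSubgroupIn ℚ), ∃ a ∈ ι.fieldRange,
            ∃ m : (compPack B hB hqM (input Dt) rfl L).Lh v,
              act t ((compPack B hB hqM (input Dt) rfl L).emb v ⟨f, hf⟩) =
                a * m ^ q * (compPack B hB hqM (input Dt) rfl L).emb v ⟨f, hf⟩ := by
  have h := @exists_twist_roots_emb M q _ _ B hB hqM _ Dt h2 h3 x hx hα hβ D f hR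
  refine ⟨h.choose, fun L hLL hL => ?_⟩
  have h' := h.choose_spec L hLL hL
  refine ⟨h'.choose, fun v => ⟨?_, ?_⟩⟩
  · rw [Ne, map_eq_zero_iff _ ((compPack B hB hqM (input Dt) rfl L).emb v).injective]
    intro h0
    exact hR.2.1 (congrArg Subtype.val h0)
  · intro K _ ι act hι hact t
    have h'' := h'.choose_spec (t : GQ) t.2
    exact ⟨_, hι h''.choose h''.choose_spec.choose, h''.choose_spec.choose_spec.choose v,
      k1_hyp_step act t (hact t) (h''.choose_spec.choose_spec.choose_spec.2.2 v)⟩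

end Fermat.Agent.FF4.TwistRoots
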